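import Fermat.Agent.BAD.H91_B0
import Fermat.Agent.BAD.H82_Kron
import Fermat.Agent.GTor.H33_CurveQbar

/-!
# S33, NEW case, leaf (T2) (helper46): `K1` is saturated

Plan: `NOTES/plan/R_S33_NEW.md` §1 (ii).  For a valuation ring `A` of `ℚ̄` over `p`:

  `x ∈ J₀(N)[p^k]`, `x ∈ K1(p^(k+1))`  ⟹  `x ∈ K1(p^k)`.

Proof: `p^(k+1) D = div f`, `res f = 1`, and `p^k D = div g`; then `f = c g^p` with `c` constant,
so `f = g'^p` (`ℚ̄` is algebraically closed); `g'` is a Gauss unit and `(res g')^p = 1`, hence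
`res g' = 1` because the residue field has characteristic `p`.

* `stmt_T2 : InK1 A N (p ^ (k + 1)) x → p ^ k • x = 0 → InK1 A N (p ^ k) x`;
* `inK1_of_pow : InK1 A N (p ^ (k + j)) x → p ^ k • x = 0 → InK1 A N (p ^ k) x`.
-/

set_option autoImplicit false

noncomputable section

open AlgebraicCurve ModularCurve Fermat.Agent.S28.H73 Fermat.Agent.RED.H73

namespace Fermat.Agent.S33.H46

open Fermat.Agent.BAD Fermat.Agent.BAD.H91

variable (N : ℕ) [NeZero N] (A : ValuationSubring (AlgebraicClosure ℚ))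

/-- The residue field of the Gauss valuation has characteristic `p`. -/
theorem charP_redField {p : ℕ} (hp : p.Prime) (hA : A.LiesOverPrime p) :
    CharP ↥(redField A (FNbar N) (hasScale_laurentBaseChange A N)) p := by
  have : CharP (kV A) p := Fermat.Agent.BAD.H82.charP_kV A hp hA
  exact charP_of_injective_algebraMap
    (algebraMap (kV A) ↥(redField A (FNbar N) (hasScale_laurentBaseChange A N))).injective p

/-- **(T2)**: `K1(p^(k+1)) ∩ J₀(N)[p^k] ⊆ K1(p^k)` for `A` over `p`. -/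
theorem stmt_T2 {p : ℕ} (hp : p.Prime) (hA : A.LiesOverPrime p) (k : ℕ) (x : JZero N)
    (hK : InK1 A N (p ^ (k + 1)) x) (hx : p ^ k • x = 0) : InK1 A N (p ^ k) x := by
  have : Fact p.Prime := ⟨hp⟩
  have := charP_redField N A hp hA
  obtain ⟨D, f, rfl, hres, hfD⟩ := hK
  obtain ⟨g, hg0, hgD⟩ := exists_kummer_of_nsmul_eq_zero N (p ^ k) D hx
  -- `f ≠ 0`
  have hf0 : ((f : ↥(gaussV A N)) : ↥(FNbar N)) ≠ 0 := by
    intro h0
    have : f = 0 := Subtype.ext h0
    rw [this, map_zero] at hres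
    exact zero_ne_one hres
  -- `f / g^p` has no zeros and no poles
  have hgp0 : g ^ p ≠ 0 := pow_ne_zero p hg0
  have hord : ∀ P : Place (AlgebraicClosure ℚ) ↥(FNbar N),
      P.ord (((f : ↥(gaussV A N)) : ↥(FNbar N)) * (g ^ p)⁻¹) = 0 := by
    intro P
    have hpow : P.ord (g ^ p) = (p : ℤ) * P.ord g := by
      rw [← zpow_natCast, Place.ord_zpow]
    rw [Place.ord_mul _ hf0 (inv_ne_zero hgp0), Place.ord_inv, hpow, ← hfD P, ← hgD P]
    push_cast
    ring
  obtain ⟨c, hc⟩ := Fermat.Agent.GTor.H33.exists_algebraMap_eq_FN N _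
    (mul_ne_zero hf0 (inv_ne_zero hgp0)) hord
  have hc0 : c ≠ 0 := by
    rintro rfl
    rw [map_zero] at hc
    exact mul_ne_zero hf0 (inv_ne_zero hgp0) hc.symm
  obtain ⟨c₁, hc₁⟩ := IsAlgClosed.exists_pow_nat_eq c hp.pos
  have hc₁0 : c₁ ≠ 0 := by
    rintro rfl
    rw [zero_pow hp.ne_zero] at hc₁
    exact hc0 hc₁.symm
  set g' : ↥(FNbar N) := algebraMap (AlgebraicClosure ℚ) ↥(FNbar N) c₁ * g with hg'
  have hg'p : g' ^ p = ((f : ↥(gaussV A N)) : ↥(FNbar N)) := by
    rw [hg', mul_pow, ← map_pow, hc₁, hc, mul_assoc, inv_mul_cancel₀ hgp0, mul_one]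
  have hg'0 : g' ≠ 0 := mul_ne_zero ((map_ne_zero _).2 hc₁0) hg0
  have hordg' : ∀ P : Place (AlgebraicClosure ℚ) ↥(FNbar N), P.ord g' = P.ord g := by
    intro P
    rw [hg', Place.ord_mul _ ((map_ne_zero _).2 hc₁0) hg0, ord_algebraMap_zero, zero_add]
  -- `g'` lies in the Gauss valuation ring
  have hg'V : g' ∈ gaussV A N := by
    rw [← ValuationSubring.valuation_le_one_iff]
    have h1 : (gaussV A N).valuation g' ^ p ≤ 1 := by
      rw [← map_pow, hg'p, ValuationSubring.valuation_le_one_iff]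
      exact f.2
    exact (pow_le_one_iff hp.ne_zero).1 h1
  -- its reduction is `1`
  have hresg : gaussRes A N ⟨g', hg'V⟩ = 1 := by
    have h1 : gaussRes A N ⟨g', hg'V⟩ ^ p = 1 := by
      rw [← map_pow, ← hres]
      congr 1
      exact Subtype.ext hg'p
    have h2 : frobenius ↥(redField A (FNbar N) (hasScale_laurentBaseChange A N)) p
        (gaussRes A N ⟨g', hg'V⟩)
        = frobenius ↥(redField A (FNbar N) (hasScale_laurentBaseChange A N)) p 1 := by
      rw [frobenius_def, frobenius_def, h1, one_pow]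
    exact frobenius_inj _ p h2
  refine ⟨D, ⟨g', hg'V⟩, rfl, hresg, fun P => ?_⟩
  show ((p ^ k : ℕ) : ℤ) * _ = P.ord g'
  rw [hordg', hgD P]

/-- `K1(p^(k+j)) ∩ J₀(N)[p^k] ⊆ K1(p^k)`. -/
theorem inK1_of_pow {p : ℕ} (hp : p.Prime) (hA : A.LiesOverPrime p) (k j : ℕ) (x : JZero N)
    (hK : InK1 A N (p ^ (k + j)) x) (hx : p ^ k • x = 0) : InK1 A N (p ^ k) x := by
  induction j with
  | zero => simpa using hK
  | succ j ih =>
    apply ih
    have hx' : p ^ (k + j) • x = 0 := by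
      rw [pow_add, mul_comm, mul_smul, hx, smul_zero]
    exact stmt_T2 N A hp hA (k + j) x hK hx'

/-- **(T2)** in the shape of `Fermat.Agent.S33.New.H54.Stmt_K1Sat N p`, for every level
`N ≠ 0` (for `N = 0` the field `F_0` is not finitely generated and has non-constant functions
without zeros and poles). -/
theorem stmt_K1Sat (p : ℕ) :
    p.Prime → ∀ A : ValuationSubring (AlgebraicClosure ℚ), A.LiesOverPrime p →
      ∀ (k : ℕ) (x : JZero N), InK1 A N (p ^ (k + 1)) x → p ^ k • x = 0 →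
        InK1 A N (p ^ k) x :=
  fun hp A hA k x hK hx => stmt_T2 N A hp hA k x hK hx

end Fermat.Agent.S33.H46
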