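import Fermat.Agent.S33.H86_SubqGen
import Fermat.Agent.S56.FL.H54_FLB
import Fermat.Agent.R.H86_Defs4
import Fermat.Agent.Lib.LocalGlobalDense
import Fermat.Agent.Lib.InertiaConj

/-!
# Infinitesimal points of a flat Galois module: `Stmt_FlatInf` (helper86, row S33)

`stmt_FlatInf : Fermat.Agent.R.Stmt_FlatInf`, unconditionally.

* `valuation_padicPlace_lt_one_iff`, `localGaloisToGlobal_mem_inertia`,
  `norm_sub_lt_of_mem_inertia` : bridge between the inertia group of `padicPlace p` in `G_ℚ` and
  the inertia subgroup `inertiaP p` of the local Galois group.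
* `flatInf_padicPlace` : `Stmt_FlatInf` at the place `padicPlace p`, from `subq_gen`
  (helper54's SUBQ without "killed by `p`") through helper54's bridge `toLoc`.
* `stmt_FlatInf` : every place over `p` is conjugate to `padicPlace p`.
-/

set_option autoImplicit false
set_option linter.unusedSectionVars false
set_option linter.style.haveILetI false
set_option linter.unusedVariables false

noncomputable section

namespace Fermat.Agent.S33.H86

open scoped NNReal TensorProduct Pointwise
open Fermat.Agent.S56.FL Fermat.Agent.S56.FL.H54 Fermat.Agent.R Fermat.Agent.R.H54 WithConv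
open Fermat.Agent.Lib.InertiaBridge Fermat.Agent.Lib.FrobExists

section Bridge

variable {p : ℕ} [Fact p.Prime]

/-- The valuation of `padicPlace p` is `< 1` exactly when the `p`-adic norm is. -/
theorem valuation_padicPlace_lt_one_iff (y : AlgebraicClosure ℚ) :
    (padicPlace p).valuation y < 1 ↔ ‖padicEmbedding p y‖ < 1 := by
  rw [← ValuationSubring.mem_nonunits_iff, ValuationSubring.mem_nonunits_iff_or]
  by_cases hy : y = 0
  · subst hy
    simp
  · rw [or_iff_right hy, mem_padicPlace_iff, map_inv₀, nnnorm_inv, ← NNReal.coe_le_coe,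
      NNReal.coe_inv, coe_nnnorm, NNReal.coe_one, not_le]
    have hpos : 0 < ‖padicEmbedding p y‖ := by
      rw [norm_pos_iff]
      exact (map_ne_zero_iff _ (padicEmbedding p).toRingHom.injective).mpr hy
    rw [one_lt_inv₀ hpos]

theorem padicPlace_liesOverPrime : (padicPlace p).LiesOverPrime p := by
  show (p : AlgebraicClosure ℚ) ∈ (padicPlace p).nonunits
  rw [ValuationSubring.mem_nonunits_iff, valuation_padicPlace_lt_one_iff]
  have h := Fermat.Agent.Lib.LocalGlobalDense.absQ_natCast_self p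
  rw [Fermat.Agent.Lib.LocalGlobalDense.absQ_apply] at h
  rw [h]
  have hp : p.Prime := Fact.out
  have h2 : (1 : ℝ) < p := by exact_mod_cast hp.one_lt
  exact inv_lt_one_of_one_lt₀ h2

/-- The image of the local inertia group lies in the inertia group of `padicPlace p`. -/
theorem localGaloisToGlobal_mem_inertia {τ : Gp p} (hτ : τ ∈ inertiaP p) :
    localGaloisToGlobal p τ ∈ (padicPlace p).inertiaSubgroupIn ℚ := by
  rw [mem_inertiaSubgroupIn_iff_forall]
  refine ⟨localGaloisToGlobal_mem_decompositionSubgroup p τ, fun a ha => ?_⟩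
  rw [valuation_padicPlace_lt_one_iff, map_sub, padicEmbedding_localGaloisToGlobal]
  refine hτ _ ?_
  rw [mem_padicPlace_iff] at ha
  exact_mod_cast ha

/-- An element of the inertia group of `padicPlace p` moves `p`-adic integers by elements of
norm `< 1`. -/
theorem norm_sub_lt_of_mem_inertia {σ : AlgebraicClosure ℚ ≃ₐ[ℚ] AlgebraicClosure ℚ}
    (hσ : σ ∈ (padicPlace p).inertiaSubgroupIn ℚ) (a : AlgebraicClosure ℚ)
    (ha : ‖padicEmbedding p a‖ ≤ 1) :
    ‖padicEmbedding p (σ a) - padicEmbedding p a‖ < 1 := by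
  rw [mem_inertiaSubgroupIn_iff_forall] at hσ
  have h1 : a ∈ padicPlace p := by
    rw [mem_padicPlace_iff]
    exact_mod_cast ha
  have h2 := hσ.2 a h1
  rw [valuation_padicPlace_lt_one_iff, map_sub] at h2
  exact h2

/-- The local inertia group is normal. -/
theorem conj_mem_inertiaP {τ : Gp p} (hτ : τ ∈ inertiaP p) (g : Gp p) :
    g⁻¹ * τ * g ∈ inertiaP p := by
  intro a ha
  have h1 : (g⁻¹ * τ * g) a - a = (g⁻¹ : Gp p) (τ (g a) - g a) := by
    rw [map_sub]
    have h2 : (g⁻¹ : Gp p) (g a) = a := AlgEquiv.symm_apply_apply g a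
    rw [h2]
    rfl
  rw [h1, norm_gal]
  refine hτ _ ?_
  rw [norm_gal]
  exact ha

end Bridge

section Red

variable {p : ℕ} [Fact p.Prime]
variable {H : Type} [CommRing H] [HopfAlgebra (Zloc p) H] [Module.Finite (Zloc p) H]

/-- A left inverse of a point reducing to the identity reduces to the identity. -/
theorem isRed_of_mul_eq_one {x y : WithConv (H →ₐ[Zloc p] PadicAlgCl p)} (hx : IsRed x)
    (hyx : y * x = 1) : IsRed y := by
  intro h
  have h1 := norm_conv_sub_lt y y x 1
    (fun a => by rw [sub_self, norm_zero]; exact zero_lt_one)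
    (fun a => by rw [one_apply_eq]; exact hx a) h
  rw [hyx, mul_one, one_apply_eq, norm_sub_rev] at h1
  exact h1

end Red

section Main

variable {p : ℕ} [Fact p.Prime]
variable {H : Type} [CommRing H] [HopfAlgebra (Zloc p) H]

theorem pointAct_eq_postAlg (σ : Gp p) (x : WithConv (H →ₐ[Zloc p] PadicAlgCl p)) :
    pointAct σ x =
      H50.postAlg (((σ : PadicAlgCl p →ₐ[ℚ_[p]] PadicAlgCl p).restrictScalars (Zloc p))) x :=
  rfl

theorem pointAct_mul_eq (σ : Gp p) (x y : WithConv (H →ₐ[Zloc p] PadicAlgCl p)) :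
    pointAct σ (x * y) = pointAct σ x * pointAct σ y := by
  rw [pointAct_eq_postAlg, pointAct_eq_postAlg, pointAct_eq_postAlg, map_mul]

theorem pointAct_comp_eq (σ τ : Gp p) (x : WithConv (H →ₐ[Zloc p] PadicAlgCl p)) :
    pointAct (σ * τ) x = pointAct σ (pointAct τ x) := by
  apply WithConv.ofConv_injective
  apply AlgHom.ext
  intro h
  rfl

/-- **`Stmt_FlatInf` at the place `padicPlace p`.** -/
theorem flatInf_padicPlace (hp2 : p ≠ 2) (M : Type) [AddCommGroup M]
    (act : (AlgebraicClosure ℚ ≃ₐ[ℚ] AlgebraicClosure ℚ) → M → M)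
    (hM : IsFlatGaloisModule p M act) :
    ∃ Inf : AddSubgroup M,
      (∀ σ ∈ (padicPlace p).inertiaSubgroupIn ℚ, ∀ x : M, act σ x - x ∈ Inf) ∧
      ∀ N : AddSubgroup M,
        (∀ σ ∈ (padicPlace p).decompositionSubgroup ℚ, ∀ x ∈ N, act σ x ∈ N) →
        ∀ x ∈ Inf, p • x ∈ N →
          (∀ σ ∈ (padicPlace p).inertiaSubgroupIn ℚ, act σ x - x ∈ N) → x ∈ N := by
  classical
  have hp : p.Prime := Fact.out
  obtain ⟨H, _, _, hfin, hflat, hcoc, e, hmul, hact⟩ := hM
  haveI := hfin
  haveI := hflat
  haveI := hcoc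
  have he1 : e 1 = 0 := by
    have := hmul 1 1
    rw [mul_one] at this
    exact left_eq_add.mp this
  have hact' : ∀ (σ : AlgebraicClosure ℚ ≃ₐ[ℚ] AlgebraicClosure ℚ)
      (f : WithConv (H →ₐ[Zloc p] AlgebraicClosure ℚ)), e (globConj σ f) = act σ (e f) :=
    fun σ f => hact σ f _ (fun h => rfl)
  have hsymm_add : ∀ a b : M, e.symm (a + b) = e.symm a * e.symm b := by
    intro a b
    apply e.injective
    rw [e.apply_symm_apply, hmul, e.apply_symm_apply, e.apply_symm_apply]
  have hsymm_zero : e.symm 0 = 1 := by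
    apply e.injective
    rw [e.apply_symm_apply, he1]
  -- the local equivalence
  let eL : WithConv (H →ₐ[Zloc p] PadicAlgCl p) ≃ M := locEquiv.symm.trans e
  have hL : ∀ f : WithConv (H →ₐ[Zloc p] AlgebraicClosure ℚ), eL (toLoc f) = e f := by
    intro f
    show e (locEquiv.symm (toLoc f)) = e f
    rw [← locEquiv_apply, Equiv.symm_apply_apply]
  have hLsymm : ∀ m : M, eL.symm m = toLoc (e.symm m) := by
    intro m
    apply eL.injective
    rw [eL.apply_symm_apply, hL, e.apply_symm_apply]
  have hLmul : ∀ x y : WithConv (H →ₐ[Zloc p] PadicAlgCl p), eL (x * y) = eL x + eL y := by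
    intro x y
    obtain ⟨f, rfl⟩ := toLoc_surjective x
    obtain ⟨g, rfl⟩ := toLoc_surjective y
    rw [← map_mul, hL, hL, hL, hmul]
  have hLact : ∀ (σ : Gp p) (x : WithConv (H →ₐ[Zloc p] PadicAlgCl p)),
      eL (pointAct σ x) = act (localGaloisToGlobal p σ) (eL x) := by
    intro σ x
    obtain ⟨f, rfl⟩ := toLoc_surjective x
    rw [← toLoc_globConj, hL, hL, hact']
  have hL1 : eL 1 = 0 := by
    rw [← map_one (toLoc (H := H) (p := p)), hL, he1]
  have hLpow : ∀ (x : WithConv (H →ₐ[Zloc p] PadicAlgCl p)) (n : ℕ), eL (x ^ n) = n • eL x := by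
    intro x n
    induction n with
    | zero => rw [pow_zero, zero_smul, hL1]
    | succ n ih => rw [pow_succ, hLmul, ih, succ_nsmul]
  -- the local action is additive
  have hadd : ∀ (σ : Gp p) (a b : M), act (localGaloisToGlobal p σ) (a + b) =
      act (localGaloisToGlobal p σ) a + act (localGaloisToGlobal p σ) b := by
    intro σ a b
    have h1 : a + b = eL (eL.symm a * eL.symm b) := by
      rw [hLmul, eL.apply_symm_apply, eL.apply_symm_apply]
    rw [h1, ← hLact, pointAct_mul_eq, hLmul, hLact, hLact, eL.apply_symm_apply,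
      eL.apply_symm_apply]
  have hsub : ∀ (σ : Gp p) (a b : M), act (localGaloisToGlobal p σ) (a - b) =
      act (localGaloisToGlobal p σ) a - act (localGaloisToGlobal p σ) b := by
    intro σ a b
    have h1 := hadd σ (a - b) b
    rw [sub_add_cancel] at h1
    rw [h1, add_sub_cancel_right]
  have hcomp : ∀ (σ τ : Gp p) (a : M), act (localGaloisToGlobal p (σ * τ)) a =
      act (localGaloisToGlobal p σ) (act (localGaloisToGlobal p τ) a) := by
    intro σ τ a
    have h1 : a = eL (eL.symm a) := (eL.apply_symm_apply a).symm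
    rw [h1, ← hLact, pointAct_comp_eq, hLact, hLact]
  let Inf : AddSubgroup M :=
    { carrier := {m | IsRed (toLoc (e.symm m))}
      zero_mem' := by
        show IsRed (toLoc (e.symm 0))
        rw [hsymm_zero, map_one]
        exact isRed_one
      add_mem' := fun {a b} ha hb => by
        show IsRed (toLoc (e.symm (a + b)))
        rw [hsymm_add, map_mul]
        exact isRed_mul ha hb
      neg_mem' := fun {a} ha => by
        show IsRed (toLoc (e.symm (-a)))
        refine isRed_of_mul_eq_one ha ?_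
        rw [← map_mul, ← hsymm_add, neg_add_cancel, hsymm_zero, map_one] }
  refine ⟨Inf, ?_, ?_⟩
  · intro σ hσ x
    show IsRed (toLoc (e.symm (act σ x - x)))
    have h1 : e.symm (act σ x - x) = globConj σ (e.symm x) * e.symm (-x) := by
      apply e.injective
      rw [e.apply_symm_apply, hmul, hact', e.apply_symm_apply, e.apply_symm_apply]
      abel
    rw [h1, map_mul]
    intro h
    have hx1 : ∀ a : H, ‖(toLoc (globConj σ (e.symm x))).ofConv a -
        (toLoc (e.symm x)).ofConv a‖ < 1 := by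
      intro a
      exact norm_sub_lt_of_mem_inertia hσ _ (norm_point_le_one (toLoc (e.symm x)).ofConv a)
    have h2 := norm_conv_sub_lt (toLoc (globConj σ (e.symm x))) (toLoc (e.symm x))
      (toLoc (e.symm (-x))) (toLoc (e.symm (-x))) hx1
      (fun a => by rw [sub_self, norm_zero]; exact zero_lt_one) h
    have h3 : toLoc (e.symm x) * toLoc (e.symm (-x)) = 1 := by
      rw [← map_mul, ← hsymm_add, add_neg_cancel, hsymm_zero, map_one]
    rw [h3, one_apply_eq] at h2
    exact h2
  · intro N hN x hxInf hpx hxI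
    have hNloc : ∀ (σ : Gp p), ∀ m ∈ N, act (localGaloisToGlobal p σ) m ∈ N :=
      fun σ m hm => hN _ (localGaloisToGlobal_mem_decompositionSubgroup p σ) m hm
    let E₁ : Submonoid (WithConv (H →ₐ[Zloc p] PadicAlgCl p)) :=
      { carrier := {y | eL y ∈ N}
        mul_mem' := fun {a b} ha hb => by
          show eL (a * b) ∈ N
          rw [hLmul]
          exact N.add_mem ha hb
        one_mem' := by
          show eL 1 ∈ N
          rw [hL1]
          exact N.zero_mem }
    let E₂ : Submonoid (WithConv (H →ₐ[Zloc p] PadicAlgCl p)) :=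
      { carrier := {y | ∀ τ ∈ inertiaP p, act (localGaloisToGlobal p τ) (eL y) - eL y ∈ N}
        mul_mem' := fun {a b} ha hb => by
          intro τ hτ
          show act (localGaloisToGlobal p τ) (eL (a * b)) - eL (a * b) ∈ N
          rw [hLmul, hadd]
          have h1 : act (localGaloisToGlobal p τ) (eL a) + act (localGaloisToGlobal p τ) (eL b) -
              (eL a + eL b) = (act (localGaloisToGlobal p τ) (eL a) - eL a) +
                (act (localGaloisToGlobal p τ) (eL b) - eL b) := by abel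
          rw [h1]
          exact N.add_mem (ha τ hτ) (hb τ hτ)
        one_mem' := by
          intro τ hτ
          show act (localGaloisToGlobal p τ) (eL 1) - eL 1 ∈ N
          rw [hL1]
          exact N.sub_mem (hNloc τ 0 N.zero_mem) N.zero_mem }
    have h12 : E₁ ≤ E₂ := by
      intro y hy τ hτ
      exact N.sub_mem (hNloc τ _ hy) hy
    have hinvL : ∀ x y : WithConv (H →ₐ[Zloc p] PadicAlgCl p), y * x = 1 → eL y = - eL x := by
      intro x y hyx
      have h1 : eL y + eL x = 0 := by rw [← hLmul, hyx, hL1]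
      exact eq_neg_of_add_eq_zero_left h1
    have hinv₁ : ∀ x ∈ E₁, ∀ y : WithConv (H →ₐ[Zloc p] PadicAlgCl p), y * x = 1 → y ∈ E₁ := by
      intro x hx y hyx
      show eL y ∈ N
      rw [hinvL x y hyx]
      exact N.neg_mem hx
    have hinv₂ : ∀ x ∈ E₂, ∀ y : WithConv (H →ₐ[Zloc p] PadicAlgCl p), y * x = 1 → y ∈ E₂ := by
      intro x hx y hyx τ hτ
      show act (localGaloisToGlobal p τ) (eL y) - eL y ∈ N
      rw [hinvL x y hyx]
      have h1 : act (localGaloisToGlobal p τ) (- eL x) = - act (localGaloisToGlobal p τ) (eL x) := by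
        have h2 := hsub τ 0 (eL x)
        have h3 := hsub τ 0 0
        rw [sub_zero] at h3
        have h4 : act (localGaloisToGlobal p τ) 0 = 0 := by
          have h5 := hadd τ 0 0
          rw [add_zero] at h5
          exact left_eq_add.mp h5
        rw [zero_sub, h4, zero_sub] at h2
        exact h2
      rw [h1]
      have h5 : - act (localGaloisToGlobal p τ) (eL x) - - eL x =
          - (act (localGaloisToGlobal p τ) (eL x) - eL x) := by abel
      rw [h5]
      exact N.neg_mem (hx τ hτ)
    have hE₁ : ∀ (σ : Gp p), ∀ x ∈ E₁, pointAct σ x ∈ E₁ := by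
      intro σ x hx
      show eL (pointAct σ x) ∈ N
      rw [hLact]
      exact hNloc σ _ hx
    have hE₂ : ∀ (σ : Gp p), ∀ x ∈ E₂, pointAct σ x ∈ E₂ := by
      intro g x hx τ hτ
      show act (localGaloisToGlobal p τ) (eL (pointAct g x)) - eL (pointAct g x) ∈ N
      rw [hLact, ← hcomp]
      have h1 : τ * g = g * (g⁻¹ * τ * g) := by group
      rw [h1, hcomp, ← hsub]
      exact hNloc g _ (hx _ (conj_mem_inertiaP hτ g))
    have hin : ∀ σ ∈ inertiaP p, ∀ x ∈ E₂, ∃ y ∈ E₁, pointAct σ x = x * y := by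
      intro σ hσ x hx
      refine ⟨eL.symm (act (localGaloisToGlobal p σ) (eL x) - eL x), ?_, ?_⟩
      · show eL (eL.symm (act (localGaloisToGlobal p σ) (eL x) - eL x)) ∈ N
        rw [eL.apply_symm_apply]
        exact hx σ hσ
      · apply eL.injective
        rw [hLmul, eL.apply_symm_apply, hLact]
        abel
    have hx2 : eL.symm x ∈ E₂ := by
      intro τ hτ
      show act (localGaloisToGlobal p τ) (eL (eL.symm x)) - eL (eL.symm x) ∈ N
      rw [eL.apply_symm_apply]
      exact hxI _ (localGaloisToGlobal_mem_inertia hτ)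
    have hxp : (eL.symm x) ^ p ∈ E₁ := by
      show eL ((eL.symm x) ^ p) ∈ N
      rw [hLpow, eL.apply_symm_apply]
      exact hpx
    have hred : ∀ h : H, ‖(eL.symm x).ofConv h -
        algebraMap (Zloc p) (PadicAlgCl p) (Coalgebra.counit h)‖ < 1 := by
      rw [hLsymm]
      exact hxInf
    have hmain := subq_gen hp2 H E₁ E₂ h12 hinv₁ hinv₂ hE₁ hE₂ hin (eL.symm x) hx2 hxp hred
    have : eL (eL.symm x) ∈ N := hmain
    rwa [eL.apply_symm_apply] at this

end Main

section Conj

open Fermat.Agent.Lib.FrobIntegers Fermat.Agent.Lib.InertiaConj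

attribute [local instance] qbar_isAlgebraic qbar_isAlgClosure qbar_isGalois zbar_isInvariant
  zbarTopologicalSpace zbar_discreteTopology zbar_continuousSMul

/-- Decomposition groups over the same prime are conjugate (same `g` as for the primes). -/
theorem mem_decomposition_conj (ℓ : ℕ) (hℓ : ℓ.Prime)
    (A A' : ValuationSubring (AlgebraicClosure ℚ)) (hA : A.LiesOverPrime ℓ)
    (hA' : A'.LiesOverPrime ℓ) (g : AlgebraicClosure ℚ ≃ₐ[ℚ] AlgebraicClosure ℚ)
    (hg : primeUnder A' = g • primeUnder A)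
    (s : AlgebraicClosure ℚ ≃ₐ[ℚ] AlgebraicClosure ℚ) :
    s ∈ A'.decompositionSubgroup ℚ ↔ g⁻¹ * s * g ∈ A.decompositionSubgroup ℚ := by
  rw [mem_decompositionSubgroup_iff ℓ hℓ A' hA', mem_decompositionSubgroup_iff ℓ hℓ A hA, hg,
    mul_smul, mul_smul]
  constructor
  · intro h
    rw [h, inv_smul_smul]
  · intro h
    have h1 := congrArg (fun Q => g • Q) h
    simp only [smul_inv_smul] at h1
    exact h1

/-- Inertia groups over the same prime are conjugate (same `g` as for the primes). -/
theorem mem_inertia_conj (ℓ : ℕ) (hℓ : ℓ.Prime)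
    (A A' : ValuationSubring (AlgebraicClosure ℚ)) (hA : A.LiesOverPrime ℓ)
    (hA' : A'.LiesOverPrime ℓ) (g : AlgebraicClosure ℚ ≃ₐ[ℚ] AlgebraicClosure ℚ)
    (hg : primeUnder A' = g • primeUnder A)
    (s : AlgebraicClosure ℚ ≃ₐ[ℚ] AlgebraicClosure ℚ) :
    s ∈ A'.inertiaSubgroupIn ℚ ↔ g⁻¹ * s * g ∈ A.inertiaSubgroupIn ℚ := by
  rw [mem_inertiaSubgroupIn_iff ℓ hℓ A' hA', mem_inertiaSubgroupIn_iff ℓ hℓ A hA, hg]
  constructor
  · intro h b
    have h1 := h (g • b)
    rw [Ideal.mem_pointwise_smul_iff_inv_smul_mem, smul_sub, inv_smul_smul] at h1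
    rw [mul_smul, mul_smul]
    exact h1
  · intro h b
    have h1 := h (g⁻¹ • b)
    rw [Ideal.mem_pointwise_smul_iff_inv_smul_mem, smul_sub]
    rw [mul_smul, mul_smul, smul_inv_smul] at h1
    exact h1

variable {p : ℕ} [Fact p.Prime]
variable {H : Type} [CommRing H] [HopfAlgebra (Zloc p) H]

theorem globConj_mul_eq (σ : AlgebraicClosure ℚ ≃ₐ[ℚ] AlgebraicClosure ℚ)
    (f g : WithConv (H →ₐ[Zloc p] AlgebraicClosure ℚ)) :
    globConj σ (f * g) = globConj σ f * globConj σ g :=
  map_mul (H50.postAlg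
    (((σ : AlgebraicClosure ℚ →ₐ[ℚ] AlgebraicClosure ℚ).restrictScalars (Zloc p)))) f g

theorem globConj_comp_eq (σ τ : AlgebraicClosure ℚ ≃ₐ[ℚ] AlgebraicClosure ℚ)
    (f : WithConv (H →ₐ[Zloc p] AlgebraicClosure ℚ)) :
    globConj (σ * τ) f = globConj σ (globConj τ f) := by
  apply WithConv.ofConv_injective
  apply AlgHom.ext
  intro h
  rfl

theorem globConj_one_eq (f : WithConv (H →ₐ[Zloc p] AlgebraicClosure ℚ)) :
    globConj 1 f = f := by
  apply WithConv.ofConv_injective
  apply AlgHom.ext
  intro h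
  rfl

/-- The Galois action on a flat Galois module is an action by additive maps. -/
theorem act_props {M : Type} [AddCommGroup M]
    {act : (AlgebraicClosure ℚ ≃ₐ[ℚ] AlgebraicClosure ℚ) → M → M}
    (hM : IsFlatGaloisModule p M act) :
    (∀ σ a b, act σ (a + b) = act σ a + act σ b) ∧
      (∀ σ τ a, act (σ * τ) a = act σ (act τ a)) ∧ (∀ a, act 1 a = a) := by
  obtain ⟨H, _, _, hfin, hflat, hcoc, e, hmul, hact⟩ := hM
  have hact' : ∀ (σ : AlgebraicClosure ℚ ≃ₐ[ℚ] AlgebraicClosure ℚ)
      (f : WithConv (H →ₐ[Zloc p] AlgebraicClosure ℚ)), e (globConj σ f) = act σ (e f) :=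
    fun σ f => hact σ f _ (fun h => rfl)
  refine ⟨?_, ?_, ?_⟩
  · intro σ a b
    obtain ⟨f, rfl⟩ := e.surjective a
    obtain ⟨g, rfl⟩ := e.surjective b
    rw [← hmul, ← hact', ← hact', ← hact', globConj_mul_eq, hmul]
  · intro σ τ a
    obtain ⟨f, rfl⟩ := e.surjective a
    rw [← hact', ← hact', ← hact', globConj_comp_eq]
  · intro a
    obtain ⟨f, rfl⟩ := e.surjective a
    rw [← hact', globConj_one_eq]

end Conj

/-- **`Stmt_FlatInf`**: infinitesimal points of a flat Galois module. -/
theorem stmt_FlatInf : Stmt_FlatInf := by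
  intro p hp hp2 M _ act hM P hP
  haveI : Fact p.Prime := ⟨hp⟩
  obtain ⟨hadd, hcomp, hone⟩ := act_props hM
  obtain ⟨Inf₀, hI₀, hN₀⟩ := flatInf_padicPlace hp2 M act hM
  obtain ⟨g, hg⟩ := Fermat.Agent.Lib.InertiaConj.exists_smul_primeUnder p hp (padicPlace p) P
    padicPlace_liesOverPrime hP
  have hD := mem_decomposition_conj p hp (padicPlace p) P padicPlace_liesOverPrime hP g hg
  have hI := mem_inertia_conj p hp (padicPlace p) P padicPlace_liesOverPrime hP g hg
  have hginv : ∀ a, act g (act g⁻¹ a) = a := fun a => by rw [← hcomp, mul_inv_cancel, hone]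
  have hginv' : ∀ a, act g⁻¹ (act g a) = a := fun a => by rw [← hcomp, inv_mul_cancel, hone]
  have hzero : ∀ σ, act σ 0 = 0 := by
    intro σ
    have h5 := hadd σ 0 0
    rw [add_zero] at h5
    exact left_eq_add.mp h5
  have hsub : ∀ σ a b, act σ (a - b) = act σ a - act σ b := by
    intro σ a b
    have h1 := hadd σ (a - b) b
    rw [sub_add_cancel] at h1
    rw [h1, add_sub_cancel_right]
  have hneg : ∀ σ a, act σ (-a) = - act σ a := by
    intro σ a
    have h1 := hsub σ 0 a
    rw [zero_sub, hzero, zero_sub] at h1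
    exact h1
  have hnsmul : ∀ σ (n : ℕ) a, act σ (n • a) = n • act σ a := by
    intro σ n a
    induction n with
    | zero => rw [zero_smul, zero_smul, hzero]
    | succ n ih => rw [succ_nsmul, succ_nsmul, hadd, ih]
  let Inf : AddSubgroup M :=
    { carrier := {m | act g⁻¹ m ∈ Inf₀}
      zero_mem' := by
        show act g⁻¹ 0 ∈ Inf₀
        rw [hzero]
        exact Inf₀.zero_mem
      add_mem' := fun {a b} ha hb => by
        show act g⁻¹ (a + b) ∈ Inf₀
        rw [hadd]
        exact Inf₀.add_mem ha hb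
      neg_mem' := fun {a} ha => by
        show act g⁻¹ (-a) ∈ Inf₀
        rw [hneg]
        exact Inf₀.neg_mem ha }
  refine ⟨Inf, ?_, ?_⟩
  · intro σ hσ x
    show act g⁻¹ (act σ x - x) ∈ Inf₀
    have h1 : act g⁻¹ (act σ x - x) = act (g⁻¹ * σ * g) (act g⁻¹ x) - act g⁻¹ x := by
      rw [hsub, hcomp, hcomp, hginv]
    rw [h1]
    exact hI₀ _ ((hI σ).mp hσ) _
  · intro N hN x hx hpx hxI
    let N' : AddSubgroup M :=
      { carrier := {y | act g y ∈ N}
        zero_mem' := by
          show act g 0 ∈ N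
          rw [hzero]
          exact N.zero_mem
        add_mem' := fun {a b} ha hb => by
          show act g (a + b) ∈ N
          rw [hadd]
          exact N.add_mem ha hb
        neg_mem' := fun {a} ha => by
          show act g (-a) ∈ N
          rw [hneg]
          exact N.neg_mem ha }
    have hconj : ∀ σ : AlgebraicClosure ℚ ≃ₐ[ℚ] AlgebraicClosure ℚ,
        g⁻¹ * (g * σ * g⁻¹) * g = σ := fun σ => by group
    have hN' : ∀ σ ∈ (padicPlace p).decompositionSubgroup ℚ, ∀ y ∈ N', act σ y ∈ N' := by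
      intro σ hσ y hy
      show act g (act σ y) ∈ N
      have h1 : act g (act σ y) = act (g * σ * g⁻¹) (act g y) := by
        rw [hcomp, hcomp, hginv']
      rw [h1]
      refine hN _ ((hD _).mpr ?_) _ hy
      rw [hconj]
      exact hσ
    have h2 : p • act g⁻¹ x ∈ N' := by
      show act g (p • act g⁻¹ x) ∈ N
      rw [hnsmul, hginv]
      exact hpx
    have h3 : ∀ σ ∈ (padicPlace p).inertiaSubgroupIn ℚ, act σ (act g⁻¹ x) - act g⁻¹ x ∈ N' := by
      intro σ hσ
      show act g (act σ (act g⁻¹ x) - act g⁻¹ x) ∈ N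
      rw [hsub, hginv, ← hcomp, ← hcomp]
      refine hxI (g * σ * g⁻¹) ((hI _).mpr ?_)
      rw [hconj]
      exact hσ
    have hmain := hN₀ N' hN' (act g⁻¹ x) hx h2 h3
    have h4 : act g (act g⁻¹ x) ∈ N := hmain
    rwa [hginv] at h4

end Fermat.Agent.S33.H86

end
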