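import Fermat.Agent.S33.H86_Split
import Fermat.Agent.S33.H86_FlatInf

/-!
# S33 from `Stmt_FlatPoint` (S32 over discrete valuation rings) and `Stmt_OrdNew` (helper86)

`Stmt_FlatInf` and hence `Stmt_FlatOrd` (a flat, residually ordinary representation with
ramified residual representation is ordinary) are theorems; the remaining inputs of S33 are
`Stmt_FlatPoint` at level `N / p` (old case) and `Stmt_OrdNew` (new case).
-/

set_option autoImplicit false
set_option linter.style.haveILetI false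

open Polynomial IsLocalRing

namespace Fermat.Agent.S33.H86

open Fermat.Agent.R Fermat.Agent.R.H86

/-- **Flat and residually ordinary implies ordinary**, unconditionally. -/
theorem stmt_FlatOrd : Stmt_FlatOrd := flatOrd_of_flatInf stmt_FlatInf

/-- `Stmt_OrdPoint` from the old case (flatness at level `N / p`) and the new case. -/
theorem ordPoint_of_flatPoint_ordNew (hFP : Stmt_FlatPoint) (hNew : Stmt_OrdNew) :
    Stmt_OrdPoint :=
  ordPoint_of_split hFP stmt_FlatOrd hNew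

variable {p : ℕ} {N : ℕ} [NeZero N] {S : Finset ℕ}
  {𝒪 : Type} [CommRing 𝒪] [IsDomain 𝒪] [IsDiscreteValuationRing 𝒪]
  [IsAdicComplete (IsLocalRing.maximalIdeal 𝒪) 𝒪]
  {θ : CuspForm.heckeAlgebra N 2 (↑S : Set ℕ) →+* IsLocalRing.ResidueField 𝒪}
  {T : Type} [CommRing T] [IsLocalRing T] [IsNoetherianRing T]
  [IsAdicComplete (IsLocalRing.maximalIdeal T) T] [Algebra 𝒪 T] [IsLocalHom (algebraMap 𝒪 T)]
  [Module.Finite 𝒪 T] [Module.Free 𝒪 T]

/-- Frozen S33 from `Stmt_FlatPoint` and `Stmt_OrdNew`. -/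
theorem of_flatPoint_ordNew (hFP : Stmt_FlatPoint) (hNew : Stmt_OrdNew)
    [Finite (IsLocalRing.ResidueField 𝒪)] [CharZero 𝒪]
    (hp : p.Prime) (hp2 : p ≠ 2) (hp𝒪 : (p : 𝒪) ∈ IsLocalRing.maximalIdeal 𝒪)
    (hN : p ∣ N ∧ ¬ p ^ 2 ∣ N)
    (hNS : ∀ q : ℕ, q.Prime → q ∣ N → q ∈ S)
    (H : CuspForm.HeckeGaloisRepDatum N (↑S : Set ℕ) 𝒪 θ T)
    (hres : (GaloisRepAdic.ofResidualGaloisRep H.ρ.residual).IsOrdinaryAt p) :
    H.ρ.IsOrdinaryAt p :=
  of_split hFP stmt_FlatInf hNew hp hp2 hp𝒪 hN hNS H hres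

end Fermat.Agent.S33.H86
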