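import Fermat.Agent.S33.Wiring
import Fermat.Agent.R.H2_SepTFinal
import Fermat.Agent.R.H2_Cyc
import Fermat.Agent.Lib.FrobDensity.Main

/-!
# S33 from `Stmt_OrdPoint` alone (helper86, cluster R)

All algebraic leaves of the wiring are proved.  What is left is `Stmt_OrdPoint`: S33 for
representations over complete discrete valuation rings (package BAD_p + good reduction at `p`).
-/

set_option autoImplicit false

open Polynomial IsLocalRing

namespace Fermat.Agent.S33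

open Fermat.Agent.R

variable {p : ℕ} {N : ℕ} [NeZero N] {S : Finset ℕ}
  {𝒪 : Type} [CommRing 𝒪] [IsDomain 𝒪] [IsDiscreteValuationRing 𝒪]
  [IsAdicComplete (IsLocalRing.maximalIdeal 𝒪) 𝒪]
  {θ : CuspForm.heckeAlgebra N 2 (↑S : Set ℕ) →+* IsLocalRing.ResidueField 𝒪}
  {T : Type} [CommRing T] [IsLocalRing T] [IsNoetherianRing T]
  [IsAdicComplete (IsLocalRing.maximalIdeal T) T] [Algebra 𝒪 T] [IsLocalHom (algebraMap 𝒪 T)]
  [Module.Finite 𝒪 T] [Module.Free 𝒪 T]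

/-- S33 from its version over discrete valuation rings. -/
theorem of_ordPoint (hOrd : Stmt_OrdPoint)
    [Finite (IsLocalRing.ResidueField 𝒪)] [CharZero 𝒪]
    (hp : p.Prime) (hp2 : p ≠ 2) (hp𝒪 : (p : 𝒪) ∈ IsLocalRing.maximalIdeal 𝒪)
    (hN : p ∣ N ∧ ¬ p ^ 2 ∣ N)
    (hNS : ∀ q : ℕ, q.Prime → q ∣ N → q ∈ S)
    (H : CuspForm.HeckeGaloisRepDatum N (↑S : Set ℕ) 𝒪 θ T)
    (hres : (GaloisRepAdic.ofResidualGaloisRep H.ρ.residual).IsOrdinaryAt p) :
    H.ρ.IsOrdinaryAt p :=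
  wiring hOrd H2.stmt_SepT_final Fermat.Agent.Lib.FrobDensity.stmt_FD H2.stmt_CycInertia
    H2.stmt_FrobCyc hp hp2 hp𝒪 hN hNS H hres

end Fermat.Agent.S33
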