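import Fermat.Agent.S33.H86_Final2
import Fermat.Agent.S32.H86_Bridge

/-!
# S33 from frozen S19 and `Stmt_OrdNew` (helper86)

The old case of S33 (the eigensystem occurs at level `N / p`) follows from frozen S19 through the
S32 bridge (`Fermat.Agent.S32.H86.stmt_FlatPoint_of_S19`) and `stmt_FlatOrd`; the only other
input of S33 is the `p`-new case `Stmt_OrdNew`.
-/

set_option autoImplicit false
set_option linter.style.haveILetI false

open Polynomial IsLocalRing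

namespace Fermat.Agent.S33.H86

open Fermat.Agent.R Fermat.Agent.R.H86

variable {p : ℕ} {N : ℕ} [NeZero N] {S : Finset ℕ}
  {𝒪 : Type} [CommRing 𝒪] [IsDomain 𝒪] [IsDiscreteValuationRing 𝒪]
  [IsAdicComplete (IsLocalRing.maximalIdeal 𝒪) 𝒪]
  {θ : CuspForm.heckeAlgebra N 2 (↑S : Set ℕ) →+* IsLocalRing.ResidueField 𝒪}
  {T : Type} [CommRing T] [IsLocalRing T] [IsNoetherianRing T]
  [IsAdicComplete (IsLocalRing.maximalIdeal T) T] [Algebra 𝒪 T] [IsLocalHom (algebraMap 𝒪 T)]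
  [Module.Finite 𝒪 T] [Module.Free 𝒪 T]

/-- Frozen S33 from frozen S19 and `Stmt_OrdNew`. -/
theorem of_S19_ordNew (hS19 : Fermat.Agent.S32.H86.Stmt_S19) (hNew : Stmt_OrdNew)
    [Finite (IsLocalRing.ResidueField 𝒪)] [CharZero 𝒪]
    (hp : p.Prime) (hp2 : p ≠ 2) (hp𝒪 : (p : 𝒪) ∈ IsLocalRing.maximalIdeal 𝒪)
    (hN : p ∣ N ∧ ¬ p ^ 2 ∣ N)
    (hNS : ∀ q : ℕ, q.Prime → q ∣ N → q ∈ S)
    (H : CuspForm.HeckeGaloisRepDatum N (↑S : Set ℕ) 𝒪 θ T)
    (hres : (GaloisRepAdic.ofResidualGaloisRep H.ρ.residual).IsOrdinaryAt p) :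
    H.ρ.IsOrdinaryAt p :=
  of_flatPoint_ordNew (Fermat.Agent.S32.H86.stmt_FlatPoint_of_S19 hS19) hNew
    hp hp2 hp𝒪 hN hNS H hres

end Fermat.Agent.S33.H86
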