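import Fermat.Agent.S33.Wiring
import Fermat.Agent.S32.Wiring
import Fermat.Agent.R.H86_Defs4

/-!
# Flat and residually ordinary implies ordinary (helper86, cluster R, row S33)

`flatOrd_of_flatInf : Stmt_FlatInf → Stmt_FlatOrd`.

Let `V = 𝒪²` with an action of `G_ℚ`, flat at `p`, residually ordinary at the place `P`, and
such that some `σ₀` in the inertia group `I` of `P` has `(σ₀ - 1) v₀ ∉ 𝔪 V`.  Choose a basis
`b` with `b 0 = (σ₀ - 1) v₀`; residual ordinarity says that the second coordinate of every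
`(σ - 1) v` (`σ ∈ I`) lies in `𝔪`.  If one of them were `u ϖ^j ≠ 0`, then in the flat Galois
module `V / ϖ^(j+1) V` the class `x` of `ϖ^j b 1` would be infinitesimal, killed by `p`, with
`(σ - 1) x` in the decomposition-stable subgroup `N` generated by the class of `ϖ^j b 0`; by
`Stmt_FlatInf` this gives `x ∈ N`, which is absurd.  Hence `L = 𝒪 b 0` is the ordinary line.
-/

set_option autoImplicit false
set_option linter.style.haveILetI false
set_option linter.unusedSectionVars false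

open Polynomial IsLocalRing

namespace Fermat.Agent.S33.H86

open Fermat.Agent.R Fermat.Agent.R.H86

local notation "GalQ" => (AlgebraicClosure ℚ ≃ₐ[ℚ] AlgebraicClosure ℚ)

section Clean

variable {𝒪 : Type} [CommRing 𝒪] [IsDomain 𝒪] [IsDiscreteValuationRing 𝒪]
  {V : Type} [AddCommGroup V] [Module 𝒪 V]

/-- decomposition of a vector in a basis indexed by `Fin 2` -/
lemma eq_repr_smul_add (b : Module.Basis (Fin 2) 𝒪 V) (v : V) :
    v = b.repr v 0 • b 0 + b.repr v 1 • b 1 := by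
  conv_lhs => rw [← b.sum_repr v, Fin.sum_univ_two]

/-- The key step: under the conclusion of `Stmt_FlatInf` at every level `ϖ^(j+1)`, the second
coordinate of `(σ - 1) v` vanishes for all `σ` in the inertia group. -/
theorem coord_eq_zero_of_inf (r : GalQ →* Module.End 𝒪 V)
    (P : ValuationSubring (AlgebraicClosure ℚ)) (p : ℕ) (hp𝒪 : (p : 𝒪) ∈ maximalIdeal 𝒪)
    (b : Module.Basis (Fin 2) 𝒪 V)
    {σ₀ : GalQ} (hσ₀ : σ₀ ∈ P.inertiaSubgroupIn ℚ) (v₀ : V) (hb0 : b 0 = r σ₀ v₀ - v₀)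
    (hD : ∀ τ ∈ P.decompositionSubgroup ℚ, b.repr (r τ (b 0)) 1 ∈ maximalIdeal 𝒪)
    (hI : ∀ σ ∈ P.inertiaSubgroupIn ℚ, ∀ v : V, b.repr (r σ v - v) 1 ∈ maximalIdeal 𝒪)
    (hInf : ∀ a : 𝒪, a ≠ 0 → ∀ act : GalQ → (V ⧸ (Ideal.span {a} • (⊤ : Submodule 𝒪 V))) →
        (V ⧸ (Ideal.span {a} • (⊤ : Submodule 𝒪 V))),
      (∀ σ v, act σ (Submodule.Quotient.mk v) = Submodule.Quotient.mk (r σ v)) →
      ∃ Inf : AddSubgroup (V ⧸ (Ideal.span {a} • (⊤ : Submodule 𝒪 V))),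
        (∀ σ ∈ P.inertiaSubgroupIn ℚ, ∀ x, act σ x - x ∈ Inf) ∧
        ∀ N : AddSubgroup (V ⧸ (Ideal.span {a} • (⊤ : Submodule 𝒪 V))),
          (∀ σ ∈ P.decompositionSubgroup ℚ, ∀ x ∈ N, act σ x ∈ N) →
          ∀ x ∈ Inf, p • x ∈ N → (∀ σ ∈ P.inertiaSubgroupIn ℚ, act σ x - x ∈ N) → x ∈ N)
    {σ₁ : GalQ} (hσ₁ : σ₁ ∈ P.inertiaSubgroupIn ℚ) (v₁ : V) :
    b.repr (r σ₁ v₁ - v₁) 1 = 0 := by
  classical
  by_contra hc
  obtain ⟨ϖ, hϖ⟩ := IsDiscreteValuationRing.exists_irreducible 𝒪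
  obtain ⟨j, u, hu⟩ := IsDiscreteValuationRing.eq_unit_mul_pow_irreducible hc hϖ
  have hm : maximalIdeal 𝒪 = Ideal.span {ϖ} := hϖ.maximalIdeal_eq
  set a : 𝒪 := ϖ ^ (j + 1) with ha
  have ha0 : a ≠ 0 := pow_ne_zero _ hϖ.ne_zero
  set W : Submodule 𝒪 V := Ideal.span {a} • (⊤ : Submodule 𝒪 V) with hW
  let act : GalQ → (V ⧸ W) → (V ⧸ W) := fun σ =>
    Submodule.mapQ W W (r σ) (by
      rw [← Submodule.map_le_iff_le_comap, hW, Submodule.map_smul'']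
      exact Submodule.smul_mono le_rfl le_top)
  have hact : ∀ σ v, act σ (Submodule.Quotient.mk v) = Submodule.Quotient.mk (r σ v) :=
    fun σ v => rfl
  obtain ⟨Inf, hInf1, hInf2⟩ := hInf a ha0 act hact
  -- elements of `𝔪 ϖ^j` kill everything in the quotient
  have hkill : ∀ d : 𝒪, d ∈ maximalIdeal 𝒪 → ∀ v : V,
      (Submodule.Quotient.mk ((d * ϖ ^ j) • v) : V ⧸ W) = 0 := by
    intro d hd v
    rw [Submodule.Quotient.mk_eq_zero]
    refine Submodule.smul_mem_smul ?_ Submodule.mem_top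
    rw [hm] at hd
    obtain ⟨t, rfl⟩ := Ideal.mem_span_singleton.1 hd
    rw [Ideal.mem_span_singleton, ha]
    exact ⟨t, by ring⟩
  -- the class of `ϖ^j b 1`
  set x : V ⧸ W := Submodule.Quotient.mk (ϖ ^ j • b 1) with hx
  set y : V ⧸ W := Submodule.Quotient.mk (ϖ ^ j • b 0) with hy
  -- the subgroup generated by the class of `ϖ^j b 0`
  set N : AddSubgroup (V ⧸ W) := (Submodule.span 𝒪 {y}).toAddSubgroup with hN
  have hmemN : ∀ z : V ⧸ W, z ∈ N ↔ ∃ c : 𝒪, c • y = z := fun z =>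
    Submodule.mem_span_singleton
  -- the action on the two classes
  have hrepr : ∀ σ ∈ P.inertiaSubgroupIn ℚ, ∀ v : V,
      (Submodule.Quotient.mk (ϖ ^ j • (r σ v - v)) : V ⧸ W) = b.repr (r σ v - v) 0 • y := by
    intro σ hσ v
    have h1 := eq_repr_smul_add b (r σ v - v)
    have h2 : ϖ ^ j • (r σ v - v) = b.repr (r σ v - v) 0 • (ϖ ^ j • b 0)
        + (b.repr (r σ v - v) 1 * ϖ ^ j) • b 1 := by
      conv_lhs => rw [h1]
      rw [smul_add, smul_smul, smul_smul, smul_smul, mul_comm (ϖ ^ j), mul_comm (ϖ ^ j)]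
    rw [h2, Submodule.Quotient.mk_add, hkill _ (hI σ hσ v), add_zero,
      Submodule.Quotient.mk_smul]
  have hactx : ∀ σ ∈ P.inertiaSubgroupIn ℚ, ∀ v : V,
      act σ (Submodule.Quotient.mk (ϖ ^ j • v)) - Submodule.Quotient.mk (ϖ ^ j • v)
        = b.repr (r σ v - v) 0 • y := by
    intro σ hσ v
    rw [hact, ← Submodule.Quotient.mk_sub, map_smul, ← smul_sub]
    exact hrepr σ hσ v
  -- `N` is stable under the decomposition group
  have hNstab : ∀ τ ∈ P.decompositionSubgroup ℚ, ∀ z ∈ N, act τ z ∈ N := by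
    intro τ hτ z hz
    obtain ⟨c, rfl⟩ := (hmemN z).1 hz
    have h1 : act τ (c • y) = c • act τ y := by
      show Submodule.mapQ W W (r τ) _ (c • y) = c • Submodule.mapQ W W (r τ) _ y
      rw [map_smul]
    have h2 : act τ y = b.repr (r τ (b 0)) 0 • y := by
      rw [hy, hact, map_smul]
      have h3 := eq_repr_smul_add b (r τ (b 0))
      have h4 : ϖ ^ j • r τ (b 0) = b.repr (r τ (b 0)) 0 • (ϖ ^ j • b 0)
          + (b.repr (r τ (b 0)) 1 * ϖ ^ j) • b 1 := by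
        conv_lhs => rw [h3]
        rw [smul_add, smul_smul, smul_smul, smul_smul, mul_comm (ϖ ^ j), mul_comm (ϖ ^ j)]
      rw [h4, Submodule.Quotient.mk_add, hkill _ (hD τ hτ), add_zero,
        Submodule.Quotient.mk_smul]
    rw [h1, h2, (hmemN _)]
    exact ⟨c * b.repr (r τ (b 0)) 0, by rw [mul_smul]⟩
  -- `x` is infinitesimal
  have hxInf : x ∈ Inf := by
    -- `ϖ^j b 1 = u⁻¹ ((σ₁ - 1) v₁ - a₀ (σ₀ - 1) v₀)`
    set n₁ : V := r σ₁ v₁ - v₁ with hn₁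
    have h1 : n₁ = b.repr n₁ 0 • b 0 + b.repr n₁ 1 • b 1 := eq_repr_smul_add b n₁
    have h2 : ϖ ^ j • b 1 = (r σ₁ ((↑u⁻¹ : 𝒪) • v₁) - (↑u⁻¹ : 𝒪) • v₁)
        - (r σ₀ (((↑u⁻¹ : 𝒪) * b.repr n₁ 0) • v₀) - ((↑u⁻¹ : 𝒪) * b.repr n₁ 0) • v₀) := by
      have h3 : b.repr n₁ 1 • b 1 = n₁ - b.repr n₁ 0 • b 0 := by
        rw [eq_sub_iff_add_eq, add_comm]
        exact h1.symm
      have h4 : ϖ ^ j • b 1 = (↑u⁻¹ : 𝒪) • (b.repr n₁ 1 • b 1) := by
        rw [hu, smul_smul, ← mul_assoc, Units.inv_mul, one_mul]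
      rw [h4, h3, hb0, map_smul, map_smul, ← smul_sub, ← smul_sub, mul_smul, smul_sub]
    have h5 : x = (act σ₁ (Submodule.Quotient.mk ((↑u⁻¹ : 𝒪) • v₁))
          - Submodule.Quotient.mk ((↑u⁻¹ : 𝒪) • v₁))
        - (act σ₀ (Submodule.Quotient.mk (((↑u⁻¹ : 𝒪) * b.repr n₁ 0) • v₀))
          - Submodule.Quotient.mk (((↑u⁻¹ : 𝒪) * b.repr n₁ 0) • v₀)) := by
      rw [hx, h2, hact, hact, Submodule.Quotient.mk_sub, Submodule.Quotient.mk_sub,
        Submodule.Quotient.mk_sub]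
    rw [h5]
    exact Inf.sub_mem (hInf1 σ₁ hσ₁ _) (hInf1 σ₀ hσ₀ _)
  -- `p x = 0`
  have hpx : p • x ∈ N := by
    have h1 : p • x = (Submodule.Quotient.mk (((p : 𝒪) * ϖ ^ j) • b 1) : V ⧸ W) := by
      rw [hx, ← Nat.cast_smul_eq_nsmul 𝒪 p, ← Submodule.Quotient.mk_smul, smul_smul]
    rw [h1, hkill _ hp𝒪]
    exact N.zero_mem
  -- inertia fixes `x` modulo `N`
  have hxfix : ∀ σ ∈ P.inertiaSubgroupIn ℚ, act σ x - x ∈ N := by
    intro σ hσ
    rw [hx, hactx σ hσ (b 1), hmemN]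
    exact ⟨_, rfl⟩
  have hxN := hInf2 N hNstab x hxInf hpx hxfix
  obtain ⟨c, hcxy⟩ := (hmemN x).1 hxN
  -- contradiction on the second coordinate
  have h6 : ϖ ^ j • b 1 - c • (ϖ ^ j • b 0) ∈ W := by
    rw [← Submodule.Quotient.mk_eq_zero, Submodule.Quotient.mk_sub,
      Submodule.Quotient.mk_smul W c]
    show x - c • y = 0
    rw [hcxy, sub_self]
  have h7 := repr_mem_of_mem_smul_top b (Ideal.span {a}) h6 1
  rw [map_sub, map_smul, map_smul, map_smul, Finsupp.sub_apply, Finsupp.smul_apply,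
    Finsupp.smul_apply, Finsupp.smul_apply, b.repr_self, b.repr_self] at h7
  simp only [Finsupp.single_eq_same, smul_eq_mul, mul_one] at h7
  rw [Finsupp.single_eq_of_ne (by decide), mul_zero, mul_zero, sub_zero,
    Ideal.mem_span_singleton, ha] at h7
  obtain ⟨t, ht⟩ := h7
  have h8 : ϖ ^ j * 1 = ϖ ^ j * (ϖ * t) := by
    rw [mul_one]
    conv_lhs => rw [ht]
    ring
  have h9 := mul_left_cancel₀ (pow_ne_zero j hϖ.ne_zero) h8
  exact hϖ.not_isUnit (IsUnit.of_mul_eq_one _ h9.symm)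

end Clean

/-- **Flat and residually ordinary implies ordinary**, from `Stmt_FlatInf`. -/
theorem flatOrd_of_flatInf (hFI : Stmt_FlatInf) : Stmt_FlatOrd := by
  classical
  intro p hp hp2 𝒪 _ _ _ _ hp𝒪 ρ hflat hram hres P hP
  -- residual ordinarity in coordinates
  obtain ⟨b₁, hb₁D, hb₁I⟩ := exists_resOrdAt (fun σ => ρ.ρ σ) P
    ((residual_isOrdinaryAt_iff ρ p).1 hres P hP)
  obtain ⟨σ₀, hσ₀, v₀, hv₀⟩ := hram P hP
  set w₀ : ρ.V := ρ.ρ σ₀ v₀ - v₀ with hw₀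
  have ha1 : b₁.repr w₀ 1 ∈ maximalIdeal 𝒪 := hb₁I σ₀ hσ₀ v₀
  have ha0 : IsUnit (b₁.repr w₀ 0) := by
    by_contra hnu
    apply hv₀
    have h1 := eq_repr_smul_add b₁ w₀
    rw [h1]
    exact Submodule.add_mem _
      (Submodule.smul_mem_smul ((mem_maximalIdeal _).2 hnu) Submodule.mem_top)
      (Submodule.smul_mem_smul ha1 Submodule.mem_top)
  obtain ⟨b, hb0, hb1⟩ := exists_basis_replace b₁ w₀ ha0
  -- residual ordinarity in the new basis
  have hI : ∀ σ ∈ P.inertiaSubgroupIn ℚ, ∀ v : ρ.V,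
      b.repr (ρ.ρ σ v - v) 1 ∈ maximalIdeal 𝒪 := by
    intro σ hσ v
    set z : ρ.V := ρ.ρ σ v - v with hz
    have h1 := eq_repr_smul_add b z
    have h2 : b₁.repr z 1 = b.repr z 0 * b₁.repr w₀ 1 + b.repr z 1 := by
      conv_lhs => rw [h1, hb0, hb1]
      rw [map_add, map_smul, map_smul, Finsupp.add_apply, Finsupp.smul_apply,
        Finsupp.smul_apply, b₁.repr_self, Finsupp.single_eq_same, smul_eq_mul, smul_eq_mul,
        mul_one]
    have h3 : b.repr z 1 = b₁.repr z 1 - b.repr z 0 * b₁.repr w₀ 1 := by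
      rw [h2]; ring
    rw [h3]
    exact Ideal.sub_mem _ (hb₁I σ hσ v) (Ideal.mul_mem_left _ _ ha1)
  -- the conclusion of `Stmt_FlatInf` at every level
  have hInf : ∀ a : 𝒪, a ≠ 0 → ∀ act : (AlgebraicClosure ℚ ≃ₐ[ℚ] AlgebraicClosure ℚ) →
        (ρ.V ⧸ (Ideal.span {a} • (⊤ : Submodule 𝒪 ρ.V))) →
        (ρ.V ⧸ (Ideal.span {a} • (⊤ : Submodule 𝒪 ρ.V))),
      (∀ σ v, act σ (Submodule.Quotient.mk v) = Submodule.Quotient.mk (ρ.ρ σ v)) →
      ∃ Inf : AddSubgroup (ρ.V ⧸ (Ideal.span {a} • (⊤ : Submodule 𝒪 ρ.V))),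
        (∀ σ ∈ P.inertiaSubgroupIn ℚ, ∀ x, act σ x - x ∈ Inf) ∧
        ∀ N : AddSubgroup (ρ.V ⧸ (Ideal.span {a} • (⊤ : Submodule 𝒪 ρ.V))),
          (∀ σ ∈ P.decompositionSubgroup ℚ, ∀ x ∈ N, act σ x ∈ N) →
          ∀ x ∈ Inf, p • x ∈ N → (∀ σ ∈ P.inertiaSubgroupIn ℚ, act σ x - x ∈ N) → x ∈ N := by
    intro a ha act hact
    have hfin : Finite (𝒪 ⧸ Ideal.span {a}) := Fermat.Agent.S32.finite_quotient_span_pow ha
    have h1 := ((isFlatAt_iff ρ p).1 hflat).2 (Ideal.span {a}) hfin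
    have h2 : act = fun σ => ⇑(ρ.levelAction (Ideal.span {a}) σ) := by
      funext σ x
      obtain ⟨v, rfl⟩ := Submodule.Quotient.mk_surjective _ x
      rw [hact]
      rfl
    rw [h2]
    exact hFI p hp hp2 _ _ h1 P hP
  -- the line is stable under the decomposition group, residually
  have hD : ∀ τ ∈ P.decompositionSubgroup ℚ, b.repr (ρ.ρ τ (b 0)) 1 ∈ maximalIdeal 𝒪 := by
    intro τ hτ
    set z : ρ.V := ρ.ρ τ (b 0) with hz
    have h1 := eq_repr_smul_add b z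
    have h2 : b₁.repr z 1 = b.repr z 0 * b₁.repr w₀ 1 + b.repr z 1 := by
      conv_lhs => rw [h1, hb0, hb1]
      rw [map_add, map_smul, map_smul, Finsupp.add_apply, Finsupp.smul_apply,
        Finsupp.smul_apply, b₁.repr_self, Finsupp.single_eq_same, smul_eq_mul, smul_eq_mul,
        mul_one]
    have h3 : b.repr z 1 = b₁.repr z 1 - b.repr z 0 * b₁.repr w₀ 1 := by
      rw [h2]; ring
    have h4 : b₁.repr z 1 ∈ maximalIdeal 𝒪 := by
      have h5 : z = b₁.repr w₀ 0 • ρ.ρ τ (b₁ 0) + b₁.repr w₀ 1 • ρ.ρ τ (b₁ 1) := by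
        rw [hz, hb0]
        conv_lhs => rw [eq_repr_smul_add b₁ w₀]
        rw [map_add, map_smul, map_smul]
      rw [h5, map_add, map_smul, map_smul, Finsupp.add_apply, Finsupp.smul_apply,
        Finsupp.smul_apply, smul_eq_mul, smul_eq_mul]
      exact Ideal.add_mem _ (Ideal.mul_mem_left _ _ (hb₁D τ hτ)) (Ideal.mul_mem_right _ _ ha1)
    rw [h3]
    exact Ideal.sub_mem _ h4 (Ideal.mul_mem_left _ _ ha1)
  have hzero : ∀ σ ∈ P.inertiaSubgroupIn ℚ, ∀ v : ρ.V, b.repr (ρ.ρ σ v - v) 1 = 0 :=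
    fun σ hσ v => coord_eq_zero_of_inf ρ.ρ P p hp𝒪 b hσ₀ v₀ hb0 hD hI hInf hσ v
  refine ⟨Submodule.span 𝒪 {b 0}, ⟨b, rfl⟩, ?_, ?_⟩
  · intro τ hτ v hv
    obtain ⟨c, rfl⟩ := Submodule.mem_span_singleton.1 hv
    rw [map_smul]
    refine Submodule.smul_mem _ c ?_
    rw [mem_span_basis_zero_iff, hb0]
    have h1 : ρ.ρ τ (ρ.ρ σ₀ v₀ - v₀) = ρ.ρ (τ * σ₀ * τ⁻¹) (ρ.ρ τ v₀) - ρ.ρ τ v₀ := by
      rw [map_sub]
      congr 1
      rw [← Module.End.mul_apply, ← Module.End.mul_apply, ← map_mul, ← map_mul]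
      congr 2
      group
    rw [h1]
    exact hzero _ (conj_mem_inertiaSubgroupIn P hτ hσ₀) _
  · intro σ hσ v
    rw [mem_span_basis_zero_iff]
    exact hzero σ hσ v

end Fermat.Agent.S33.H86
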