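import Fermat.Agent.S33.Final
import Fermat.Agent.S33.H86_FlatOrd

/-!
# S33: the split into the old and the new case (helper86, cluster R)

* `ordPoint_of_split` : `Stmt_FlatPoint → Stmt_FlatOrd → Stmt_OrdNew → Stmt_OrdPoint`
  (with the proved leaves `Stmt_FD`, `Stmt_CycInertia`, `Stmt_FrobCyc` plugged in).
* `of_split` : frozen S33 from `Stmt_FlatPoint`, `Stmt_FlatInf`, `Stmt_OrdNew`.
-/

set_option autoImplicit false
set_option linter.style.haveILetI false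

open Polynomial IsLocalRing

namespace Fermat.Agent.S33.H86

open Fermat.Agent.R Fermat.Agent.R.H86

/-- `Stmt_OrdPoint` from the old case (flatness at level `N / p`) and the new case. -/
theorem ordPoint_of_split (hFP : Stmt_FlatPoint) (hFO : Stmt_FlatOrd) (hNew : Stmt_OrdNew) :
    Stmt_OrdPoint := by
  intro p N _ S 𝒪 _ _ _ _ _ _ hp hp2 hp𝒪 hN hNS χ ρ hρ habs hres
  obtain ⟨⟨M, hM⟩, hp2N⟩ := hN
  have hNM : N = M * p := by rw [hM, mul_comm]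
  have hpM : ¬ p ∣ M := by
    rintro ⟨c, rfl⟩
    exact hp2N ⟨c, by rw [hM]; ring⟩
  haveI : NeZero M := ⟨by
    rintro rfl
    exact NeZero.ne N (by rw [hNM, zero_mul])⟩
  have hpS : p ∈ S := hNS p hp ⟨M, hM⟩
  by_cases h : OccursAtLevel χ M
  · obtain ⟨χ', hχ'⟩ := h
    have hρ' : HasFrobCharpoly χ' ρ := by
      intro ℓ hℓ hℓM hℓS B hB σ hσ
      have hℓN : ¬ ℓ ∣ N := by
        rw [hNM]
        intro hd
        rcases (Nat.Prime.dvd_mul hℓ).1 hd with h1 | h1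
        · exact hℓM h1
        · have : ℓ = p := (Nat.prime_dvd_prime_iff_eq hℓ hp).1 h1
          exact hℓS (by rw [this]; exact_mod_cast hpS)
      rw [hχ' ℓ hℓ hℓN hℓM hℓS]
      exact hρ ℓ hℓ hℓN hℓS B hB σ hσ
    have hMS : ∀ q : ℕ, q.Prime → q ∣ M → q ∈ S := fun q hq hqM =>
      hNS q hq (by rw [hNM]; exact Dvd.dvd.mul_right hqM p)
    have hflat : ρ.IsFlatAt p := hFP p M S 𝒪 hp hp2 hp𝒪 hpM hpS hMS χ' ρ hρ' habs
    refine hFO p hp hp2 𝒪 hp𝒪 ρ hflat ?_ hres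
    intro P hP
    exact exists_inertia_notMem Fermat.Agent.Lib.FrobDensity.stmt_FD H2.stmt_CycInertia
      H2.stmt_FrobCyc hp hp2 hpS hNS hp𝒪 χ ρ hρ P hP
  · exact hNew p N M S 𝒪 hp hp2 hp𝒪 hNM hpM hNS χ ρ hρ habs h

variable {p : ℕ} {N : ℕ} [NeZero N] {S : Finset ℕ}
  {𝒪 : Type} [CommRing 𝒪] [IsDomain 𝒪] [IsDiscreteValuationRing 𝒪]
  [IsAdicComplete (IsLocalRing.maximalIdeal 𝒪) 𝒪]
  {θ : CuspForm.heckeAlgebra N 2 (↑S : Set ℕ) →+* IsLocalRing.ResidueField 𝒪}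
  {T : Type} [CommRing T] [IsLocalRing T] [IsNoetherianRing T]
  [IsAdicComplete (IsLocalRing.maximalIdeal T) T] [Algebra 𝒪 T] [IsLocalHom (algebraMap 𝒪 T)]
  [Module.Finite 𝒪 T] [Module.Free 𝒪 T]

/-- Frozen S33 from: S32 over discrete valuation rings (`Stmt_FlatPoint`), the infinitesimal
points of flat Galois modules (`Stmt_FlatInf`) and the `p`-new case (`Stmt_OrdNew`). -/
theorem of_split (hFP : Stmt_FlatPoint) (hFI : Stmt_FlatInf) (hNew : Stmt_OrdNew)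
    [Finite (IsLocalRing.ResidueField 𝒪)] [CharZero 𝒪]
    (hp : p.Prime) (hp2 : p ≠ 2) (hp𝒪 : (p : 𝒪) ∈ IsLocalRing.maximalIdeal 𝒪)
    (hN : p ∣ N ∧ ¬ p ^ 2 ∣ N)
    (hNS : ∀ q : ℕ, q.Prime → q ∣ N → q ∈ S)
    (H : CuspForm.HeckeGaloisRepDatum N (↑S : Set ℕ) 𝒪 θ T)
    (hres : (GaloisRepAdic.ofResidualGaloisRep H.ρ.residual).IsOrdinaryAt p) :
    H.ρ.IsOrdinaryAt p :=
  Fermat.Agent.S33.of_ordPoint (ordPoint_of_split hFP (flatOrd_of_flatInf hFI) hNew)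
    hp hp2 hp𝒪 hN hNS H hres

end Fermat.Agent.S33.H86
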