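import Fermat.Agent.S56.FL.H54_Unram

/-!
# Reduction is injective on unramified subquotients, general form (helper86, row S33)

`subq_gen` is helper54's `Stmt_SUBQ` (`Fermat/Agent/S56/FL/H54_Conn.lean`) without the hypothesis
that all points are killed by `p`: only `x ^ p ∈ E₁` is needed, and the submonoids `E₁ ≤ E₂` are
assumed to be closed under inverses.  The proof is helper54's proof.
-/

set_option autoImplicit false
set_option linter.unusedSectionVars false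
set_option linter.style.haveILetI false

noncomputable section

namespace Fermat.Agent.S33.H86

open scoped NNReal TensorProduct
open Fermat.Agent.S56.FL Fermat.Agent.S56.FL.H54 Fermat.Agent.R.H54 WithConv

/-- **SUBQ, general form.**  `E₁ ≤ E₂` Galois-stable subgroups of the group of `K̄`-points of a
finite flat cocommutative Hopf algebra over `ℤ_(p)` (`p` odd) with inertia acting trivially on
`E₂ / E₁`; a point `x ∈ E₂` with `x ^ p ∈ E₁` which reduces to the identity lies in `E₁`. -/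
theorem subq_gen {p : ℕ} [Fact p.Prime] (hp2 : p ≠ 2)
    (H : Type) [CommRing H] [HopfAlgebra (Zloc p) H] [Module.Finite (Zloc p) H]
    [Coalgebra.IsCocomm (Zloc p) H]
    (E₁ E₂ : Submonoid (WithConv (H →ₐ[Zloc p] PadicAlgCl p))) (h12 : E₁ ≤ E₂)
    (hinv₁ : ∀ x ∈ E₁, ∀ y : WithConv (H →ₐ[Zloc p] PadicAlgCl p), y * x = 1 → y ∈ E₁)
    (hinv₂ : ∀ x ∈ E₂, ∀ y : WithConv (H →ₐ[Zloc p] PadicAlgCl p), y * x = 1 → y ∈ E₂)
    (hE₁ : ∀ (σ : Gp p), ∀ x ∈ E₁, pointAct σ x ∈ E₁)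
    (hE₂ : ∀ (σ : Gp p), ∀ x ∈ E₂, pointAct σ x ∈ E₂)
    (hin : ∀ σ ∈ inertiaP p, ∀ x ∈ E₂, ∃ y ∈ E₁, pointAct σ x = x * y)
    (x : WithConv (H →ₐ[Zloc p] PadicAlgCl p)) (hx : x ∈ E₂) (hxp : x ^ p ∈ E₁)
    (hred : ∀ h : H,
      ‖x.ofConv h - algebraMap (Zloc p) (PadicAlgCl p) (Coalgebra.counit h)‖ < 1) :
    x ∈ E₁ := by
  classical
  have hUV : Stmt_UnramVal := stmt_UnramVal
  have hp : p.Prime := Fact.out
  have hD := descentData_padic (p := p)
  -- the subgroups of the points of the base change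
  have hsub : ∀ E : Submonoid (WithConv (H →ₐ[Zloc p] PadicAlgCl p)),
      (∀ x ∈ E, ∀ y : WithConv (H →ₐ[Zloc p] PadicAlgCl p), y * x = 1 → y ∈ E) →
      (∀ (σ : Gp p), ∀ x ∈ E, pointAct σ x ∈ E) →
      IsGSubgroup hD {φ : Pts ℤ_[p] (ℤ_[p] ⊗[Zloc p] H) (PadicAlgCl p) | resBC φ ∈ E} := by
    intro E hEinv hE
    refine ⟨?_, ?_, ?_, ?_⟩
    · show resBC 1 ∈ E
      rw [resBC_one]
      exact E.one_mem
    · intro f hf g hg
      show resBC (f * g) ∈ E
      rw [resBC_mul]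
      exact E.mul_mem hf hg
    · intro f hf
      show resBC (pinv f) ∈ E
      have h1 : resBC (pinv f) * resBC f = 1 := by rw [← resBC_mul, pinv_mul, resBC_one]
      exact hEinv _ hf _ h1
    · intro σ f hf
      show resBC (gconj hD σ f) ∈ E
      rw [resBC_gconj]
      exact hE σ _ hf
  have hX₁ := hsub E₁ hinv₁ hE₁
  have hX₂ := hsub E₂ hinv₂ hE₂
  set X₁ : Set (Pts ℤ_[p] (ℤ_[p] ⊗[Zloc p] H) (PadicAlgCl p)) := {φ | resBC φ ∈ E₁} with hX₁def
  set X₂ : Set (Pts ℤ_[p] (ℤ_[p] ⊗[Zloc p] H) (PadicAlgCl p)) := {φ | resBC φ ∈ E₂} with hX₂def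
  obtain ⟨A, _, _, hfin, hfree, hcoc, q, hq_mul, hq_ker, hq_gal, hq_val⟩ :=
    exists_subquotient_model hD hX₁ hX₂
  haveI := hfin
  haveI := hfree
  haveI := hcoc
  set xh := extBC x with hxh
  have hxh2 : xh ∈ X₂ := by
    show resBC (extBC x) ∈ E₂
    rw [resBC_extBC]
    exact hx
  have hq_one : q 1 = 1 := (hq_ker 1 hX₂.one_mem).mpr hX₁.one_mem
  have hq_pow : ∀ n : ℕ, q (xh ^ n) = q xh ^ n := by
    intro n
    induction n with
    | zero => rw [pow_zero, pow_zero, hq_one]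
    | succ n ih =>
      rw [pow_succ, pow_succ, hq_mul _ (IsGSubgroup_pow_mem hX₂ hxh2 n) _ hxh2, ih]
  have hxhp : xh ^ p ∈ X₁ := by
    show resBC (xh ^ p) ∈ E₁
    rw [resBC_pow, resBC_extBC]
    exact hxp
  set u := q xh with hu
  have hup : u ^ p = 1 := by
    rw [hu, ← hq_pow]
    exact (hq_ker _ (IsGSubgroup_pow_mem hX₂ hxh2 p)).mpr hxhp
  have hu_val : ∀ a : A, ‖u a - algebraMap ℤ_[p] (PadicAlgCl p) (Coalgebra.counit a)‖ < 1 := by
    intro a
    obtain ⟨t, hc, hv⟩ := hq_val a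
    rw [hu, hv xh hxh2, hc]
    exact norm_extBC_sub_counit_lt x hred t
  have hu_inert : ∀ σ ∈ inertiaP p, ∀ a : A, σ (u a) = u a := by
    intro σ hσ a
    obtain ⟨y, hy, hσx⟩ := hin σ hσ x hx
    have hyh1 : extBC y ∈ X₁ := by
      show resBC (extBC y) ∈ E₁
      rw [resBC_extBC]
      exact hy
    have hyh2 : extBC y ∈ X₂ := by
      show resBC (extBC y) ∈ E₂
      rw [resBC_extBC]
      exact h12 hy
    have h1 : gconj hD σ xh = xh * extBC y := by
      rw [hxh, ← extBC_pointAct, hσx, extBC_mul]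
    have h2 : gconj hD σ u = u := by
      rw [hu, ← hq_gal σ xh hxh2, h1, hq_mul xh hxh2 _ hyh2, (hq_ker _ hyh2).mpr hyh1, mul_one]
    have h3 := congrArg (fun φ : Pts ℤ_[p] A (PadicAlgCl p) => φ a) h2
    exact h3
  have hu_small : ∀ a : A,
      ‖u a - algebraMap ℤ_[p] (PadicAlgCl p) (Coalgebra.counit a)‖ ≤ (p : ℝ)⁻¹ := by
    intro a
    refine hUV p _ (fun σ hσ => ?_) (hu_val a)
    rw [map_sub, hu_inert σ hσ a]
    congr 1
    rw [algebraMap_padicInt_eq]
    exact σ.commutes _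
  have hu1 : u = 1 := point_eq_one_of_small hp2 u hup hu_small
  have hxh1 : xh ∈ X₁ := (hq_ker xh hxh2).mp hu1
  have : resBC (extBC x) ∈ E₁ := hxh1
  rwa [resBC_extBC] at this

end Fermat.Agent.S33.H86

end
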