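import Fermat.Agent.R.H86_Point
import Fermat.Agent.S31.Wiring

/-!
# S33 wiring (helper86, cluster R)

`Fermat.Agent.S33.wiring`: the frozen statement S33 (a Hecke–Galois datum of level `N`, `p ∥ N`,
is ordinary at `p` provided its residual representation is) from

* `Stmt_OrdPoint`   : the same statement for representations over complete discrete valuation
  rings (geometric input),
* `Stmt_SepT`       : the points of `T` separate its elements (`T` is reduced),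
* `Stmt_FD`         : Frobenius density,
* `Stmt_CycInertia`, `Stmt_FrobCyc` : the cyclotomic character is non-trivial on inertia at `p`.

Proof.  Fix `P` over `p`.  There are `σ₀` in the inertia group and `v₀` with
`w₀ = ρ σ₀ v₀ - v₀ ∉ 𝔪 V`; `w₀` is the first vector of a basis `b₂`.  For `σ` in the inertia
group the second coordinate of `ρ σ v - v` vanishes at every point of `T` (the ordinary line of
the base change contains `1 ⊗ w₀`, hence is spanned by it), so it vanishes.  The line `T w₀`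
is the ordinary line.
-/

set_option autoImplicit false
set_option linter.style.haveILetI false

open Polynomial IsLocalRing
open scoped TensorProduct

namespace Fermat.Agent.S33

open Fermat.Agent.R Fermat.Agent.R.H86

/-- Replace the first vector of a basis by a vector whose first coordinate is a unit. -/
lemma exists_basis_replace {R M : Type*} [CommRing R] [AddCommGroup M] [Module R M]
    (b : Module.Basis (Fin 2) R M) (w : M) (hw : IsUnit (b.repr w 0)) :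
    ∃ b₂ : Module.Basis (Fin 2) R M, b₂ 0 = w ∧ b₂ 1 = b 1 := by
  classical
  let Mx : Matrix (Fin 2) (Fin 2) R := !![b.repr w 0, 0; b.repr w 1, 1]
  let f : M →ₗ[R] M := Matrix.toLin b b Mx
  have hdet : IsUnit (LinearMap.toMatrix b b f).det := by
    rw [LinearMap.toMatrix_toLin, Matrix.det_fin_two]
    simpa [Mx] using hw
  let e : M ≃ₗ[R] M := LinearEquiv.ofIsUnitDet hdet
  refine ⟨b.map e, ?_, ?_⟩
  · rw [Module.Basis.map_apply]
    show f (b 0) = w
    rw [Matrix.toLin_self, Fin.sum_univ_two]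
    conv_rhs => rw [← b.sum_repr w, Fin.sum_univ_two]
    simp [Mx]
  · rw [Module.Basis.map_apply]
    show f (b 1) = b 1
    rw [Matrix.toLin_self, Fin.sum_univ_two]
    simp [Mx]

/-- The inertia group is normalised by the decomposition group. -/
lemma conj_mem_inertiaSubgroupIn (P : ValuationSubring (AlgebraicClosure ℚ))
    {τ σ : AlgebraicClosure ℚ ≃ₐ[ℚ] AlgebraicClosure ℚ}
    (hτ : τ ∈ P.decompositionSubgroup ℚ) (hσ : σ ∈ P.inertiaSubgroupIn ℚ) :
    τ * σ * τ⁻¹ ∈ P.inertiaSubgroupIn ℚ := by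
  obtain ⟨s, hs, rfl⟩ := hσ
  refine ⟨⟨τ, hτ⟩ * s * ⟨τ, hτ⟩⁻¹, ?_, rfl⟩
  have hn : (P.inertiaSubgroup ℚ).Normal := by
    unfold ValuationSubring.inertiaSubgroup
    infer_instance
  exact hn.conj_mem s hs ⟨τ, hτ⟩

/-- The computation at one point: if the base change has an ordinary line, the second
coordinate of `r σ v - v` (`σ` in the inertia group) with respect to a basis starting with
`r σ₀ v₀ - v₀` vanishes at this point. -/
lemma coord_eq_zero_of_point {A B : Type} [CommRing A] [CommRing B] [Algebra A B]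
    {V : Type} [AddCommGroup V] [Module A V]
    (r : (AlgebraicClosure ℚ ≃ₐ[ℚ] AlgebraicClosure ℚ) → Module.End A V)
    (b₂ : Module.Basis (Fin 2) A V) (P : ValuationSubring (AlgebraicClosure ℚ))
    {σ₀ : AlgebraicClosure ℚ ≃ₐ[ℚ] AlgebraicClosure ℚ} (hσ₀ : σ₀ ∈ P.inertiaSubgroupIn ℚ)
    (v₀ : V) (hb₂0 : b₂ 0 = r σ₀ v₀ - v₀)
    (L' : Submodule B (B ⊗[A] V)) (b'' : Module.Basis (Fin 2) B (B ⊗[A] V))
    (hL' : L' = Submodule.span B {b'' 0})
    (hI' : ∀ s ∈ P.inertiaSubgroupIn ℚ, ∀ x : B ⊗[A] V, (r s).baseChange B x - x ∈ L')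
    {σ : AlgebraicClosure ℚ ≃ₐ[ℚ] AlgebraicClosure ℚ} (hσ : σ ∈ P.inertiaSubgroupIn ℚ)
    (v : V) : algebraMap A B (b₂.repr (r σ v - v) 1) = 0 := by
  classical
  subst hL'
  let b₂' : Module.Basis (Fin 2) B (B ⊗[A] V) := Algebra.TensorProduct.basis B b₂
  have hI'' : ∀ s ∈ P.inertiaSubgroupIn ℚ, ∀ x : V,
      ((1 : B) ⊗ₜ[A] (r s x - x) : B ⊗[A] V) ∈ Submodule.span B {b'' 0} := by
    intro s hs x
    have h1 := hI' s hs ((1 : B) ⊗ₜ[A] x)
    rwa [LinearMap.baseChange_tmul, ← TensorProduct.tmul_sub] at h1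
  obtain ⟨c₀, hc₀⟩ := Submodule.mem_span_singleton.1 (hI'' σ₀ hσ₀ v₀)
  obtain ⟨c, hc⟩ := Submodule.mem_span_singleton.1 (hI'' σ hσ v)
  have hb₂'0 : b₂' 0 = (1 : B) ⊗ₜ[A] (r σ₀ v₀ - v₀) := by
    rw [Algebra.TensorProduct.basis_apply, hb₂0]
  have hc₀u : IsUnit c₀ := by
    have h1 := congrArg (fun x => b₂'.repr x 0) hc₀
    simp only [map_smul, Finsupp.smul_apply, smul_eq_mul] at h1
    rw [← hb₂'0, Module.Basis.repr_self, Finsupp.single_eq_same] at h1
    exact IsUnit.of_mul_eq_one _ h1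
  have hmem : ((1 : B) ⊗ₜ[A] (r σ v - v) : B ⊗[A] V) ∈ Submodule.span B {b₂' 0} := by
    have hb'' : b'' 0 = (hc₀u.unit⁻¹ : Bˣ) • b₂' 0 := by
      rw [hb₂'0, ← hc₀, Units.smul_def, smul_smul]
      have : ((hc₀u.unit⁻¹ : Bˣ) : B) * c₀ = 1 := hc₀u.val_inv_mul
      rw [this, one_smul]
    rw [← hc, hb'', Units.smul_def, smul_smul]
    exact Submodule.smul_mem _ _ (Submodule.mem_span_singleton_self _)
  rw [mem_span_basis_zero_iff, Algebra.TensorProduct.basis_repr_tmul, one_smul,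
    Finsupp.mapRange_apply] at hmem
  exact hmem

variable {p : ℕ} {N : ℕ} [NeZero N] {S : Finset ℕ}
  {𝒪 : Type} [CommRing 𝒪] [IsDomain 𝒪] [IsDiscreteValuationRing 𝒪]
  [IsAdicComplete (IsLocalRing.maximalIdeal 𝒪) 𝒪]
  {θ : CuspForm.heckeAlgebra N 2 (↑S : Set ℕ) →+* IsLocalRing.ResidueField 𝒪}
  {T : Type} [CommRing T] [IsLocalRing T] [IsNoetherianRing T]
  [IsAdicComplete (IsLocalRing.maximalIdeal T) T] [Algebra 𝒪 T] [IsLocalHom (algebraMap 𝒪 T)]
  [Module.Finite 𝒪 T] [Module.Free 𝒪 T]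

/-- S33 from its version over discrete valuation rings. -/
theorem wiring (hOrd : Stmt_OrdPoint) (hSepT : Stmt_SepT) (hFD : Stmt_FD)
    (hCyc : Stmt_CycInertia) (hFrob : Stmt_FrobCyc)
    [Finite (IsLocalRing.ResidueField 𝒪)] [CharZero 𝒪]
    (hp : p.Prime) (hp2 : p ≠ 2) (hp𝒪 : (p : 𝒪) ∈ IsLocalRing.maximalIdeal 𝒪)
    (hN : p ∣ N ∧ ¬ p ^ 2 ∣ N)
    (hNS : ∀ q : ℕ, q.Prime → q ∣ N → q ∈ S)
    (H : CuspForm.HeckeGaloisRepDatum N (↑S : Set ℕ) 𝒪 θ T)
    (hres : (GaloisRepAdic.ofResidualGaloisRep H.ρ.residual).IsOrdinaryAt p) :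
    H.ρ.IsOrdinaryAt p := by
  classical
  intro P hP
  have hpS : p ∈ S := hNS p hp hN.1
  have hpT : (p : T) ∈ maximalIdeal T := natCast_mem_maximalIdeal_of_algebra hp𝒪
  obtain ⟨σ₀, hσ₀, v₀, hw₀⟩ := exists_inertia_notMem hFD hCyc hFrob hp hp2 hpS hNS hpT
    H.π H.ρ (hasFrobCharpoly_datum H) P hP
  obtain ⟨b, hb⟩ := exists_resOrdAt (fun σ => H.ρ.ρ σ) P
    ((residual_isOrdinaryAt_iff _ _).1 hres P hP)
  -- coordinates of `w₀`
  have hβ₀ : b.repr (H.ρ.ρ σ₀ v₀ - v₀) 1 ∈ maximalIdeal T := hb.2 σ₀ hσ₀ v₀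
  have hα₀ : IsUnit (b.repr (H.ρ.ρ σ₀ v₀ - v₀) 0) := by
    by_contra hnu
    apply hw₀
    rw [← b.sum_repr (H.ρ.ρ σ₀ v₀ - v₀), Fin.sum_univ_two]
    exact add_mem (Submodule.smul_mem_smul ((mem_maximalIdeal _).2 hnu) trivial)
      (Submodule.smul_mem_smul hβ₀ trivial)
  obtain ⟨b₂, hb₂0, -⟩ := exists_basis_replace b _ hα₀
  -- main claim
  have hmain : ∀ σ ∈ P.inertiaSubgroupIn ℚ, ∀ v : H.ρ.V,
      b₂.repr (H.ρ.ρ σ v - v) 1 = 0 := by
    intro σ hσ v
    by_contra hne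
    obtain ⟨𝒪', i1, i2, i3, i4, i5, i6, ψ, hψ, hψne⟩ := hSepT N S 𝒪 θ T hNS H _ hne
    have hp𝒪' : (p : 𝒪') ∈ maximalIdeal 𝒪' := by
      have h1 : (p : 𝒪') = ψ (p : T) := by rw [map_natCast]
      rw [h1]
      exact (mem_maximalIdeal _).2 (map_nonunit ψ _ ((mem_maximalIdeal _).1 hpT))
    have hord' := hOrd p N S 𝒪' hp hp2 hp𝒪' hN hNS (ψ.comp H.π) (H.ρ.baseChangeAlong ψ hψ)
      (hasFrobCharpoly_baseChangeAlong ψ hψ H.π H.ρ (hasFrobCharpoly_datum H))
      (residual_absIrr_baseChangeAlong ψ hψ H.ρ H.residual_absIrr)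
      (residual_isOrdinaryAt_baseChangeAlong ψ hψ H.ρ p hres)
    obtain ⟨L', ⟨b'', hL'⟩, -, hI'⟩ := hord' P hP
    letI : Algebra T 𝒪' := ψ.toAlgebra
    exact hψne (coord_eq_zero_of_point (B := 𝒪') (fun s => H.ρ.ρ s) b₂ P hσ₀ v₀ hb₂0 L' b'' hL'
      hI' hσ v)
  refine ⟨Submodule.span T {b₂ 0}, ⟨b₂, rfl⟩, ?_, ?_⟩
  · intro τ hτ v hv
    obtain ⟨c, rfl⟩ := Submodule.mem_span_singleton.1 hv
    rw [map_smul]
    refine Submodule.smul_mem _ _ ?_
    have hconj := conj_mem_inertiaSubgroupIn P hτ hσ₀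
    have e : H.ρ.ρ τ (b₂ 0)
        = H.ρ.ρ (τ * σ₀ * τ⁻¹) (H.ρ.ρ τ v₀) - H.ρ.ρ τ v₀ := by
      rw [hb₂0, map_sub, ← Module.End.mul_apply, ← Module.End.mul_apply, ← map_mul, ← map_mul,
        inv_mul_cancel_right]
    rw [e, mem_span_basis_zero_iff]
    exact hmain _ hconj _
  · intro σ hσ v
    rw [mem_span_basis_zero_iff]
    exact hmain σ hσ v

end Fermat.Agent.S33
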